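import Fermat.Agent.S20.Defs
import Fermat.Agent.S20.Infty

/-!
# S20 / Cusp / Basic: the normal form of the fundamental matrix at `i∞`
-/

set_option autoImplicit false

open UpperHalfPlane hiding I
open ModularForm CongruenceSubgroup Matrix.SpecialLinearGroup Real Complex
open scoped MatrixGroups ModularForm Manifold
open Filter Asymptotics Topology

namespace Fermat.Agent.S20

/-- (a) the limit matrix of `Ψ τ = Emat N (-τ) * Fmat k f τ`. -/
theorem cusp_exists_limit (N : ℕ) [NeZero N] (k : X N → ℤ) (f : ∀ y, ModularForm (Γ N) (k y)) :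
    ∃ Ψ₀ : Matrix (X N) (X N) ℂ, ∀ x y,
      (fun τ : ℍ => (Emat N (-(τ : ℂ)) * Fmat k f τ) x y - Ψ₀ x y) =O[atImInfty]
        (fun τ => Real.exp (-2 * π * τ.im)) := by
  have h : ∀ y, ∃ Ψ₀ : X N → ℂ, ∀ x,
      (fun τ : ℍ => (Emat N (-(τ : ℂ))).mulVec (fun x' => Fmat k f τ x' y) x - Ψ₀ x) =O[atImInfty]
        (fun τ => Real.exp (-2 * π * τ.im)) := by
    intro y
    apply exists_limit_mulVec N (fun τ x' => Fmat k f τ x' y)
    · intro x
      exact tw_mdifferentiable (f y).holo' x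
    · intro x
      exact tw_isBoundedAtImInfty (f y) x
    · intro τ x
      have := congrFun (congrFun (Fmat_T_smul k f τ) x) y
      rw [Pmat_mul_apply] at this
      exact this
  choose Ψ₀ hΨ₀ using h
  exact ⟨fun x y => Ψ₀ y x, fun x y => hΨ₀ y x⟩

theorem cusp_Fmat_eq (N : ℕ) [NeZero N] (k : X N → ℤ) (f : ∀ y, ModularForm (Γ N) (k y))
    (τ : ℍ) : Fmat k f τ = Emat N (τ : ℂ) * (Emat N (-(τ : ℂ)) * Fmat k f τ) := by
  rw [← Matrix.mul_assoc, Emat_mul_neg, Matrix.one_mul]

/-- `exp (-c Im τ) → 0` at `i∞`. -/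
theorem cusp_tendsto_exp (c : ℝ) (hc : 0 < c) :
    Tendsto (fun τ : ℍ => Real.exp (-c * τ.im)) atImInfty (𝓝 0) := by
  have h1 : Tendsto (fun τ : ℍ => c * τ.im) atImInfty atTop :=
    Tendsto.const_mul_atTop hc tendsto_comap
  have h2 := Real.tendsto_exp_neg_atTop_nhds_zero.comp h1
  refine h2.congr fun τ => ?_
  simp

/-- A function which is `O(exp (-2π Im τ))` tends to zero at `i∞`. -/
theorem cusp_tendsto_of_isBigO {E : Type*} [NormedAddCommGroup E] {u : ℍ → E}
    (hu : u =O[atImInfty] (fun τ : ℍ => Real.exp (-2 * π * τ.im))) :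
    Tendsto u atImInfty (𝓝 0) := by
  refine hu.trans_tendsto ?_
  have := cusp_tendsto_exp (2 * π) (by positivity)
  refine this.congr fun τ => ?_
  ring_nf

/-- Level one forms are invariant under the slash action of `SL(2,ℤ)`. -/
theorem cusp_slash_levelOne {k : ℤ} {F : Type*} [FunLike F ℍ ℂ]
    [SlashInvariantFormClass F 𝒮ℒ k] (p : F) (γ : SL(2, ℤ)) : (p : ℍ → ℂ) ∣[k] γ = p := by
  rw [SL_slash]
  exact SlashInvariantFormClass.slash_action_eq p _ ⟨_, rfl⟩

theorem cusp_mul_slash {w k₁ k₂ : ℤ} (h : k₁ + k₂ = w) (A : SL(2, ℤ)) (f g : ℍ → ℂ) :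
    (f * g) ∣[w] A = f ∣[k₁] A * g ∣[k₂] A := by
  subst h
  exact mul_slash_SL2 k₁ k₂ A f g

theorem cusp_tw_mul {N : ℕ} {w k₁ k₂ : ℤ} (h : k₁ + k₂ = w) (f g : ℍ → ℂ) (x : X N) :
    tw w (f * g) x = tw k₁ f x * tw k₂ g x := by
  subst h
  exact tw_mul k₁ k₂ f g x

/-- The normalised Eisenstein series: a level one form of weight `a` tending to `1`
exponentially fast. -/
theorem cusp_exists_eis (a : ℤ) (ha : 3 ≤ a) (ha2 : Even a) :
    ∃ p : ModularForm 𝒮ℒ a,
      (fun τ : ℍ => p τ - 1) =O[atImInfty] (fun τ : ℍ => Real.exp (-2 * π * τ.im)) := by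
  lift a to ℕ using (by omega)
  have ha' : 3 ≤ a := by exact_mod_cast ha
  have ha2' : Even a := by exact_mod_cast ha2
  refine ⟨E ha', ?_⟩
  have hper := SlashInvariantFormClass.periodic_comp_ofComplex (E ha') one_mem_strictPeriods_SL
  have h1 := UpperHalfPlane.exp_decay_sub_atImInfty (h := 1) one_pos hper
    (ModularFormClass.holo (E ha')) (ModularFormClass.bdd_at_infty (E ha'))
  have h2 : valueAtInfty (E ha') = 1 := by
    rw [← qExpansion_coeff_zero one_pos
      (ModularFormClass.analyticAt_cuspFunction_zero (E ha') one_pos one_mem_strictPeriods_SL) hper]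
    exact EisensteinSeries.E_qExpansion_coeff_zero ha' ha2'
  rw [h2] at h1
  simpa using h1

/-- `Δ = O(exp (-2π Im τ))`. -/
theorem cusp_discriminant_isBigO :
    (discriminant : ℍ → ℂ) =O[atImInfty] (fun τ : ℍ => Real.exp (-2 * π * τ.im)) := by
  have := CuspFormClass.exp_decay_atImInfty (h := 1) CuspForm.discriminant one_pos
    one_mem_strictPeriods_SL
  simpa using this

/-- Entrywise bounds for a product of matrices. -/
theorem cusp_isBigO_mul {n m o : Type*} [Fintype m] {l : Filter ℍ} {gA gB : ℍ → ℝ}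
    (A : ℍ → Matrix n m ℂ) (B : ℍ → Matrix m o ℂ)
    (hA : ∀ x y, (fun τ => A τ x y) =O[l] gA) (hB : ∀ x y, (fun τ => B τ x y) =O[l] gB)
    (x : n) (y : o) :
    (fun τ => (A τ * B τ) x y) =O[l] (fun τ => gA τ * gB τ) := by
  simp only [Matrix.mul_apply]
  exact IsBigO.fun_sum fun j _ => (hA x j).mul (hB j y)

/-- Entrywise bounds for a matrix applied to a vector. -/
theorem cusp_isBigO_mulVec {n m : Type*} [Fintype m] {l : Filter ℍ} {gA gu : ℍ → ℝ}
    (A : ℍ → Matrix n m ℂ) (u : ℍ → m → ℂ)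
    (hA : ∀ x y, (fun τ => A τ x y) =O[l] gA) (hu : ∀ y, (fun τ => u τ y) =O[l] gu) (x : n) :
    (fun τ => (A τ).mulVec (u τ) x) =O[l] (fun τ => gA τ * gu τ) := by
  simp only [Matrix.mulVec, dotProduct]
  exact IsBigO.fun_sum fun y _ => (hA x y).mul (hu y)

/-- Holomorphy of the determinant of a matrix of holomorphic functions. -/
theorem cusp_mdiff_det {n : Type} [Fintype n] [DecidableEq n] (M : ℍ → Matrix n n ℂ)
    (hM : ∀ i j, MDiff (fun τ => M τ i j)) : MDiff (fun τ => (M τ).det) := by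
  have h : (fun τ => (M τ).det) = ∑ σ : Equiv.Perm n,
      (((Equiv.Perm.sign σ : ℤ) : ℂ)) • ∏ i, (fun τ => M τ (σ i) i) := by
    funext τ
    rw [Matrix.det_apply']
    simp [Finset.sum_apply, Finset.prod_apply]
  rw [h]
  exact MDifferentiable.sum fun σ _ => (MDifferentiable.prod fun i _ => hM (σ i) i).const_smul _

/-- Holomorphy of the entries of the inverse of a matrix of holomorphic functions. -/
theorem cusp_mdiff_inv {n : Type} [Fintype n] [DecidableEq n] (M : ℍ → Matrix n n ℂ)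
    (hM : ∀ i j, MDiff (fun τ => M τ i j)) (hdet : ∀ τ, (M τ).det ≠ 0) (i j : n) :
    MDiff (fun τ => (M τ)⁻¹ i j) := by
  have h : (fun τ => (M τ)⁻¹ i j) = (fun τ => ((M τ).det)⁻¹) * (fun τ => (M τ).adjugate i j) := by
    funext τ
    rw [Matrix.inv_def, Ring.inverse_eq_inv', Matrix.smul_apply, smul_eq_mul]
    rfl
  rw [h]
  refine ((cusp_mdiff_det M hM).inv hdet).mul ?_
  have h2 : (fun τ => (M τ).adjugate i j) =
      fun τ => ((M τ).updateRow j (Pi.single i 1)).det := by
    funext τ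
    rw [Matrix.adjugate_apply]
  rw [h2]
  apply cusp_mdiff_det
  intro a b
  by_cases ha : a = j
  · subst ha
    simp only [Matrix.updateRow_self]
    exact mdifferentiable_const
  · simp only [Matrix.updateRow_ne ha]
    exact hM a b

end Fermat.Agent.S20
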