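import Fermat.Agent.S20.Cusp.Basic

/-!
# S20 / Cusp / Sat: the saturation argument (`det Ψ₀ ≠ 0`)
-/

set_option autoImplicit false

open UpperHalfPlane hiding I
open ModularForm CongruenceSubgroup Matrix.SpecialLinearGroup Real Complex
open scoped MatrixGroups ModularForm Manifold
open Filter Asymptotics Topology

namespace Fermat.Agent.S20

/-- Every weight of an independent family is even. -/
theorem cusp_even (N : ℕ) [NeZero N] (k : X N → ℤ) (f : ∀ y, ModularForm (Γ N) (k y))
    (hind : Indep k f) (y : X N) : Even (k y) := by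
  by_contra hodd
  rw [Int.not_even_iff_odd] at hodd
  have hneg : (-1 : GL (Fin 2) ℝ) ∈ Γ N := by
    refine ⟨-1, ?_, ?_⟩
    · show (-1 : SL(2, ℤ)) ∈ Gamma0 N
      rw [Gamma0_mem]
      simp
    · ext
      simp
  have hfy : f y = 0 := ModularForm.eq_zero_of_neg_one_mem hneg hodd (f y)
  classical
  let p : ∀ j, ModularForm 𝒮ℒ (k y - k j) := fun j =>
    if h : j = y then ModularForm.mcast (by rw [h]; ring) (1 : ModularForm 𝒮ℒ 0) else 0
  have hp := hind (k y) p (by
    refine Finset.sum_eq_zero fun j _ => ?_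
    by_cases h : j = y
    · subst h
      rw [hfy]
      simp
    · simp [p, h])
  have h1 := congrArg (fun q : ModularForm 𝒮ℒ (k y - k y) => q UpperHalfPlane.I) (hp y)
  simp [p] at h1

/-- (c) Saturation: the limit matrix is invertible. -/
theorem cusp_det_limit_ne_zero (N : ℕ) [NeZero N] (k : X N → ℤ)
    (f : ∀ y, ModularForm (Γ N) (k y)) (hgen : Gen k f) (hind : Indep k f)
    (Ψ₀ : Matrix (X N) (X N) ℂ)
    (hΨ₀ : ∀ x y, (fun τ : ℍ => (Emat N (-(τ : ℂ)) * Fmat k f τ) x y - Ψ₀ x y) =O[atImInfty]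
        (fun τ => Real.exp (-2 * π * τ.im))) : Ψ₀.det ≠ 0 := by
  intro hdet
  obtain ⟨v, hv0, hv⟩ := Matrix.exists_mulVec_eq_zero_iff.mpr hdet
  -- weights
  set S : ℤ := ∑ y, |k y| with hS
  have hS0 : ∀ y, k y ≤ S := fun y => (le_abs_self _).trans
    (Finset.single_le_sum (f := fun y => |k y|) (fun i _ => abs_nonneg _) (Finset.mem_univ y))
  have hS1 : 0 ≤ S := Finset.sum_nonneg fun i _ => abs_nonneg _
  set w : ℤ := 4 + 2 * S with hw
  have h3 : ∀ y, 3 ≤ w - k y := fun y => by have := hS0 y; omega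
  have hev : ∀ y, Even (w - k y) := fun y => by
    have h1 := cusp_even N k f hind y
    have h2 : Even w := ⟨2 + S, by rw [hw]; ring⟩
    exact h2.sub h1
  choose p hp using fun y => cusp_exists_eis (w - k y) (h3 y) (hev y)
  -- the form g
  let g : ℍ → ℂ := ∑ y, v y • ((p y : ℍ → ℂ) * (f y : ℍ → ℂ))
  have hginv : SlashInv N w g := by
    intro γ hγ
    simp only [g, SlashAction.sum_slash, SL_smul_slash]
    refine Finset.sum_congr rfl fun y _ => ?_
    rw [cusp_mul_slash (show (w - k y) + k y = w by ring), inv_of_modularForm (f y) γ hγ,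
      cusp_slash_levelOne (p y) γ]
  have hgdiff : MDiff g := by
    refine MDifferentiable.sum fun y _ => ?_
    exact ((p y).holo'.mul (f y).holo').const_smul (v y)
  have htw : ∀ x : X N, tw w g x = ∑ y, v y • ((p y : ℍ → ℂ) * tw (k y) (f y) x) := by
    intro x
    simp only [g, tw_sum, tw_smul]
    refine Finset.sum_congr rfl fun y _ => ?_
    rw [cusp_tw_mul (show (w - k y) + k y = w by ring), tw_levelOne]
  -- the bound
  let u : ℍ → X N → ℂ := fun τ y => v y * p y τ
  have htw' : ∀ (x : X N) (τ : ℍ), tw w g x τ =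
      (Emat N (τ : ℂ)).mulVec ((Emat N (-(τ : ℂ)) * Fmat k f τ).mulVec (u τ)) x := by
    intro x τ
    rw [Matrix.mulVec_mulVec, ← cusp_Fmat_eq, htw]
    simp only [Matrix.mulVec, dotProduct, Fmat, u, Finset.sum_apply, Pi.smul_apply, Pi.mul_apply,
      smul_eq_mul]
    refine Finset.sum_congr rfl fun y _ => ?_
    ring
  obtain ⟨C, hC⟩ := Emat_bound N
  have hE : ∀ x x', (fun τ : ℍ => Emat N (τ : ℂ) x x') =O[atImInfty] (fun _ => (1 : ℝ)) := by
    intro x x'
    refine IsBigO.of_bound C (Eventually.of_forall fun τ => ?_)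
    simpa using (hC τ τ.im_pos.le x x').1
  have hu : ∀ y, (fun τ => u τ y) =O[atImInfty] (fun _ => (1 : ℝ)) := by
    intro y
    have : IsBoundedAtImInfty (p y : ℍ → ℂ) := ModularFormClass.bdd_at_infty (p y)
    exact (this.const_mul_left (v y))
  have hu1 : ∀ y, (fun τ => u τ y - v y) =O[atImInfty]
      (fun τ : ℍ => Real.exp (-2 * π * τ.im)) := by
    intro y
    have := (hp y).const_mul_left (v y)
    refine this.congr_left fun τ => ?_
    simp only [u]
    ring
  have hΨu : ∀ x, (fun τ : ℍ => (Emat N (-(τ : ℂ)) * Fmat k f τ).mulVec (u τ) x) =O[atImInfty]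
      (fun τ : ℍ => Real.exp (-2 * π * τ.im)) := by
    intro x
    have e1 := cusp_isBigO_mulVec (fun τ : ℍ => Emat N (-(τ : ℂ)) * Fmat k f τ - Ψ₀) u
      (fun x y => hΨ₀ x y) hu x
    have e2 := cusp_isBigO_mulVec (fun _ : ℍ => Ψ₀) (fun τ y => u τ y - v y)
      (fun x y => isBigO_const_const _ one_ne_zero _) hu1 x
    simp only [mul_one, one_mul] at e1 e2
    refine (e1.add e2).congr_left fun τ => ?_
    have h1 : (fun y => u τ y - v y) = u τ - v := rfl
    rw [h1, Matrix.sub_mulVec, Matrix.mulVec_sub, hv]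
    simp
  have htwO : ∀ x : X N, tw w g x =O[atImInfty] (fun τ : ℍ => Real.exp (-2 * π * τ.im)) := by
    intro x
    have e := cusp_isBigO_mulVec (fun τ : ℍ => Emat N (τ : ℂ))
      (fun τ => (Emat N (-(τ : ℂ)) * Fmat k f τ).mulVec (u τ)) hE hΨu x
    simp only [one_mul] at e
    exact e.congr_left fun τ => (htw' x τ).symm
  -- g / Δ
  have hΔinv : ∀ γ : SL(2, ℤ), (discriminant : ℍ → ℂ) ∣[(12 : ℤ)] γ = discriminant :=
    fun γ => cusp_slash_levelOne CuspForm.discriminant γ
  obtain ⟨G, hG⟩ : ∃ G : ModularForm (Γ N) (w - 12), (G : ℍ → ℂ) = g / discriminant := by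
    refine ⟨mkMF N (w - 12) (g / discriminant) ?_ ?_ ?_, rfl⟩
    · intro γ hγ
      rw [div_slash_SL2, hginv γ hγ, hΔinv γ]
    · exact hgdiff.div CuspForm.discriminant.holo' discriminant_ne_zero
    · intro γ
      rw [div_slash_SL2, hΔinv γ, slash_eq_tw hginv γ]
      have := (htwO (X.mk γ⁻¹)).trans exp_isBigO_discriminant
      exact (div_isBoundedUnder_of_isBigO this).isBigO_one ℝ
  obtain ⟨Q, hQ⟩ := hgen (w - 12) G
  rw [hG] at hQ
  let R : ∀ y, ModularForm 𝒮ℒ (w - k y) := fun y =>
    v y • p y - ModularForm.mcast (by ring) ((CuspForm.discriminant : ModularForm 𝒮ℒ 12).mul (Q y))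
  have hRapp : ∀ y (τ : ℍ), R y τ = v y * p y τ - discriminant τ * Q y τ := by
    intro y τ
    rfl
  have hR := hind w R (by
    funext τ
    have hQτ := congrFun hQ τ
    simp only [Pi.div_apply, Finset.sum_apply, Pi.mul_apply] at hQτ
    have hgτ : g τ = discriminant τ * ∑ y, Q y τ * f y τ := by
      rw [← hQτ, mul_div_cancel₀ _ (discriminant_ne_zero τ)]
    have hgτ' : g τ = ∑ y, v y * (p y τ * f y τ) := by
      simp only [g, Finset.sum_apply, Pi.smul_apply, Pi.mul_apply, smul_eq_mul]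
    simp only [Finset.sum_apply, Pi.mul_apply, Pi.zero_apply, hRapp]
    have : ∑ y, (v y * p y τ - discriminant τ * Q y τ) * f y τ =
        ∑ y, v y * (p y τ * f y τ) - discriminant τ * ∑ y, Q y τ * f y τ := by
      rw [Finset.mul_sum, ← Finset.sum_sub_distrib]
      refine Finset.sum_congr rfl fun y _ => ?_
      ring
    rw [this, ← hgτ', ← hgτ, sub_self])
  apply hv0
  funext y
  have hRy := hR y
  have heq : ∀ τ : ℍ, v y * p y τ = discriminant τ * Q y τ := by
    intro τ
    have := congrArg (fun q : ModularForm 𝒮ℒ (w - k y) => q τ) hRy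
    simp only [hRapp] at this
    have h0 : (0 : ModularForm 𝒮ℒ (w - k y)) τ = 0 := rfl
    rw [h0] at this
    linear_combination this
  have l1 : Tendsto (fun τ : ℍ => v y * p y τ) atImInfty (𝓝 (v y)) := by
    have := cusp_tendsto_of_isBigO (hp y)
    have h2 : Tendsto (fun τ : ℍ => p y τ) atImInfty (𝓝 1) := by
      have := this.add_const 1
      simpa using this
    simpa using h2.const_mul (v y)
  have l2 : Tendsto (fun τ : ℍ => discriminant τ * Q y τ) atImInfty (𝓝 0) := by
    have hQb : IsBoundedAtImInfty (Q y : ℍ → ℂ) := ModularFormClass.bdd_at_infty (Q y)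
    have := cusp_discriminant_isBigO.mul hQb
    exact cusp_tendsto_of_isBigO (by simpa using this)
  exact tendsto_nhds_unique (l1.congr heq) l2

end Fermat.Agent.S20
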